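import Fermat.Agent.S43.PB.Inv
import Fermat.Agent.S43.R0.HeckePP
import Fermat.Agent.S31.Cyclo

/-!
# S43 / PB / Theta : (INV) in Hecke form

`KK = B1.Kum Qb (F1Q N).F (p ^ k)`, `p ≥ 5`, `p ∤ N`.  For a class `y ∈ KK` fixed by all the diamond operators:

* `exists_pull_eq_hecke` : `T_ℓ y - (ℓ + 1) y ∈ π^* Kum(X₀(N))`     (`KK^Δ / π^* Kum` is Eisenstein);
* `exists_pull_eq_of_iterate` : **(INV)** if `(T_ℓ - a) ^ n y = 0` with `p ∤ a - (ℓ + 1)` then `y ∈ π^* Kum(X₀(N))`.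
-/

set_option autoImplicit false
set_option linter.unusedSectionVars false

open AlgebraicCurve ModularCurve

namespace Fermat.Agent.S43.PB

open Fermat.Agent.S48
open Fermat.Agent.ES (Qb GQ FF)
open Fermat.Agent.S43.R0

noncomputable section

variable {N : ℕ} [NeZero N] (hN : 5 ≤ N)

theorem coprime_pow_of {p : ℕ} (hp : p.Prime) (hp5 : 5 ≤ p) (hpN : ¬ p ∣ N) (k : ℕ) :
    Nat.Coprime (p ^ k) (12 * N) := by
  apply Nat.Coprime.pow_left
  rw [Nat.Prime.coprime_iff_not_dvd hp]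
  intro h
  rcases (Nat.Prime.dvd_mul hp).1 h with h | h
  · have h12 : (12 : ℕ) = 2 ^ 2 * 3 := by norm_num
    rw [h12] at h
    rcases (Nat.Prime.dvd_mul hp).1 h with h | h
    · have := (Nat.prime_dvd_prime_iff_eq hp Nat.prime_two).1 (hp.dvd_of_dvd_pow h)
      omega
    · have := (Nat.prime_dvd_prime_iff_eq hp Nat.prime_three).1 h
      omega
  · exact hpN h

/-- `KK^Δ / π^* Kum(X₀(N))` is Eisenstein. -/
theorem exists_pull_eq_hecke {p : ℕ} (hp : p.Prime) (hp5 : 5 ≤ p) (hpN : ¬ p ∣ N) (k : ℕ)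
    (P : Fermat.Agent.ES.D.GoodPrime N) (hPp : P.1 ≠ p) (y : B1.Kum Qb (X1.F1Q N).F (p ^ k))
    (hy : ∀ d : (ZMod N)ˣ, B1.diaKum (HD hN) (p ^ k) d y = y) :
    ∃ x : Fermat.Agent.ES.Kum N (p ^ k), pull hN (p ^ k) x
      = B1.heckeKum (HD hN) (preservesDm_HD hN (pow_pos hp.pos k)) P y - (P.1 + 1) • y := by
  obtain ⟨A, hA, φ, hφ⟩ := Fermat.Agent.S54.exists_frob P.1 P.2.1
  have hm : 0 < p ^ k := pow_pos hp.pos k
  have hPm : ¬ P.1 ∣ p ^ k := fun h =>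
    hPp ((Nat.prime_dvd_prime_iff_eq P.2.1 hp).1 (P.2.1.dvd_of_dvd_pow h))
  have hφr : ∀ ζ : Qb, ζ ^ (p ^ k) = 1 → φ ζ = ζ ^ P.1 := fun ζ hζ =>
    Fermat.Agent.S31.frob_apply_root A P.2.1 hA φ hφ hPm hζ
  have hcop := coprime_pow_of hp hp5 hpN k
  set y' := B1.galKum (X1.F1Q N) (p ^ k) φ⁻¹ y with hy'
  have hyd : ∀ d : (ZMod N)ˣ, B1.diaKum (HD hN) (p ^ k) d y' = y' := by
    intro d
    rw [hy', B1.diaKum_galKum, hy d]
  obtain ⟨x1, hx1⟩ := exists_pull_eq hN hm hcop y hy φ P.1 hφr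
  obtain ⟨x2, hx2⟩ := exists_pull_eq hN hm hcop y' hyd φ P.1 hφr
  have h1 : B1.galKum (X1.F1Q N) (p ^ k) φ y' = y := by
    rw [hy', ← B1.galKum_mul, mul_inv_cancel, B1.galKum_one]
  refine ⟨x1 - x2, ?_⟩
  rw [map_sub, hx1, hx2, h1, KK_heckeKum_eq hN hp k P hPp A hA φ hφ y, ← hy', hyd, add_smul, one_smul]
  abel

/-- **(INV)**, iterate form. -/
theorem exists_pull_eq_of_iterate {p : ℕ} (hp : p.Prime) (hp5 : 5 ≤ p) (hpN : ¬ p ∣ N) (k : ℕ)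
    (P : Fermat.Agent.ES.D.GoodPrime N) (hPp : P.1 ≠ p) (a : ℤ) (ha : ¬ (p : ℤ) ∣ a - (P.1 + 1))
    (y : B1.Kum Qb (X1.F1Q N).F (p ^ k))
    (hy : ∀ d : (ZMod N)ˣ, B1.diaKum (HD hN) (p ^ k) d y = y) (n : ℕ)
    (hn : (fun z : B1.Kum Qb (X1.F1Q N).F (p ^ k) =>
      B1.heckeKum (HD hN) (preservesDm_HD hN (pow_pos hp.pos k)) P z - a • z)^[n] y = 0) :
    ∃ x : Fermat.Agent.ES.Kum N (p ^ k), pull hN (p ^ k) x = y := by
  set T' : B1.Kum Qb (X1.F1Q N).F (p ^ k) → B1.Kum Qb (X1.F1Q N).F (p ^ k) := fun z =>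
    B1.heckeKum (HD hN) (preservesDm_HD hN (pow_pos hp.pos k)) P z - a • z with hT'
  have hit : ∀ (j : ℕ) (z : B1.Kum Qb (X1.F1Q N).F (p ^ k)),
      (∀ d : (ZMod N)ˣ, B1.diaKum (HD hN) (p ^ k) d z = z) →
      ∃ x : Fermat.Agent.ES.Kum N (p ^ k),
        pull hN (p ^ k) x = T'^[j] z - (((P.1 : ℤ) + 1 - a) ^ j) • z := by
    intro j
    induction j with
    | zero => exact fun z _ => ⟨0, by simp⟩
    | succ j ih =>
      intro z hz
      have hz' : ∀ d : (ZMod N)ˣ, B1.diaKum (HD hN) (p ^ k) d (T' z) = T' z := by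
        intro d
        simp only [hT']
        rw [map_sub, map_zsmul, B1.diaKum_heckeKum, hz d]
      obtain ⟨x1, hx1⟩ := ih (T' z) hz'
      obtain ⟨x0, hx0⟩ := exists_pull_eq_hecke hN hp hp5 hpN k P hPp z hz
      refine ⟨x1 + (((P.1 : ℤ) + 1 - a) ^ j) • x0, ?_⟩
      have h2 : T' z = pull hN (p ^ k) x0 + ((P.1 : ℤ) + 1 - a) • z := by
        rw [hx0]
        simp only [hT']
        rw [sub_smul, add_smul (P.1 : ℤ), one_smul, natCast_zsmul, add_smul, one_smul]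
        abel
      rw [map_add, map_zsmul, hx1, Function.iterate_succ_apply, pow_succ, mul_smul]
      nth_rewrite 2 [h2]
      rw [smul_add]
      abel
  obtain ⟨x, hx⟩ := hit n y hy
  rw [hn, zero_sub] at hx
  have hcop : IsCoprime ((((P.1 : ℤ) + 1 - a) ^ n)) (((p ^ k : ℕ) : ℤ)) := by
    rw [Nat.cast_pow]
    apply IsCoprime.pow
    rw [isCoprime_comm, Prime.coprime_iff_not_dvd (Nat.prime_iff_prime_int.1 hp)]
    intro h
    apply ha
    have : a - ((P.1 : ℤ) + 1) = -((P.1 : ℤ) + 1 - a) := by ring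
    rw [this]
    exact (dvd_neg).2 h
  obtain ⟨u, v, huv⟩ := hcop
  have h5 : ((p ^ k : ℕ) : ℤ) • y = 0 := by
    rw [natCast_zsmul]
    exact B1.Kum.nsmul_eq_zero y
  refine ⟨(-u) • x, ?_⟩
  rw [map_zsmul, hx, smul_neg, neg_smul, neg_neg]
  calc u • (((P.1 : ℤ) + 1 - a) ^ n) • y
      = (u * (((P.1 : ℤ) + 1 - a) ^ n) + v * ((p ^ k : ℕ) : ℤ)) • y := by
        rw [add_smul, mul_smul, mul_smul, h5, smul_zero, add_zero]
    _ = y := by rw [huv, one_smul]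

end

end Fermat.Agent.S43.PB
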