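import Fermat.Agent.S43.PB.Theta
import Fermat.Agent.S43.Th.KK
import Fermat.Agent.S43.Th.Bridge

/-!
# S43 / PB / K0 : (INV) and (INJ)-free form for the `θ`-parts `Th.K0 ≤ KK`, `Fin.Vth ≤ ES.Kum N (p ^ k)`

`inv_K0` : `y ∈ Th.K0 hN hp k hNS a` fixed by all the diamond operators, `θ` non Eisenstein  ⟹  `y = π^* x` with `x ∈ Fin.Vth N (p ^ k) S a`
(this is the field `inv` of `Ctl.Hyp`).
-/

set_option autoImplicit false
set_option linter.unusedSectionVars false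
set_option linter.style.haveILetI false

open AlgebraicCurve ModularCurve

namespace Fermat.Agent.S43.PB

open Fermat.Agent.S48
open Fermat.Agent.ES (Qb GQ FF)
open Fermat.Agent.SS (GP)
open Fermat.Agent.S43.R0

noncomputable section

variable {N : ℕ} [NeZero N] (hN : 5 ≤ N) {p : ℕ} (hp : p.Prime) (k : ℕ) {S : Finset ℕ}
  (hNS : ∀ r : ℕ, r.Prime → r ∣ N → r ∈ S) (hpS : p ∈ S) (a : ℕ → ℤ)

include hpS in
/-- `π^*` is Hecke equivariant (in the `Th` vocabulary). -/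
theorem pull_TT (ℓ : GP S) (x : Fermat.Agent.ES.Kum N (p ^ k)) :
    pull hN (p ^ k) (Th.TT N (p ^ k) S hNS ℓ x) = Th.TlK hN hp k hNS ℓ (pull hN (p ^ k) x) := by
  haveI : NeZero ℓ.1 := ⟨ℓ.2.1.ne_zero⟩
  haveI : NeZero (ℓ.good hNS).1 := ⟨ℓ.2.1.ne_zero⟩
  rw [Th.TT_apply, Th.TlK_apply]
  exact pull_heckeKum hN hp k (ℓ.good hNS) (fun h => ℓ.2.2 (by
    have h' : ℓ.1 = p := h
    rw [h']
    exact hpS)) x

include hpS in
/-- **(INV)** for the `θ`-parts. -/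
theorem inv_K0 (hp5 : 5 ≤ p) (hpN : ¬ p ∣ N)
    (hnE : ∃ ℓ : GP S, ¬ (p : ℤ) ∣ a ℓ.1 - (ℓ.1 + 1))
    (y : B1.Kum Qb (X1.F1Q N).F (p ^ k)) (hy : y ∈ Th.K0 hN hp k hNS a)
    (hd : ∀ d : (ZMod N)ˣ, B1.diaKum (HD hN) (p ^ k) d y = y) :
    ∃ x ∈ Fin.Vth N (p ^ k) S a, pull hN (p ^ k) x = y := by
  haveI : Finite (B1.Kum Qb (X1.F1Q N).F (p ^ k)) := CH.finite_F1 N hN (pow_pos hp.pos k)
  haveI : Finite (Fermat.Agent.ES.Kum N (p ^ k)) :=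
    Fermat.Agent.ES.Glue.finite_Kum (pow_pos hp.pos k)
  obtain ⟨ℓ, hℓ⟩ := hnE
  have hy1 := (Th.mem_K0 hN hp k hNS a).1 hy
  obtain ⟨n, hn⟩ := hy1.1 ℓ
  have hℓp : (ℓ.good hNS).1 ≠ p := fun h => ℓ.2.2 (by
    have h' : ℓ.1 = p := h
    rw [h']
    exact hpS)
  -- `y` is a pull-back
  have hex : ∃ x, pull hN (p ^ k) x = y := by
    refine exists_pull_eq_of_iterate hN hp hp5 hpN k (ℓ.good hNS) hℓp (a ℓ.1) hℓ y hd n ?_
    rw [Module.End.pow_apply] at hn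
    refine Eq.trans ?_ hn
    congr 1
  -- and of a class of the `θ`-part
  have hw : y ∈ Th.Vth (Th.TlK hN hp k hNS) (fun ℓ : GP S => a ℓ.1) := fun i => hy1.1 i
  obtain ⟨x, hx, hxy⟩ := Th.exists_preimage (Th.TT_comm (p ^ k) hNS)
    (Th.TlK_comm hN hp k hNS hpS) hp (fun z => B1.Kum.nsmul_eq_zero z) (pull hN (p ^ k))
    (fun i z => pull_TT hN hp k hNS hpS i z) hw hex
  refine ⟨x, ?_, hxy⟩
  rw [Th.Fin_Vth_eq (hNS := hNS)]
  exact hx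

end

end Fermat.Agent.S43.PB
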