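import Fermat.Agent.S43.PB.Theta
import Fermat.Agent.S43.Ctl.Main

/-!
# S43 / PB / Ctl : the hypothesis `Ctl.INV` holds; the control package `Ctl.hyp` without hypothesis
-/

set_option autoImplicit false
set_option linter.unusedSectionVars false

open AlgebraicCurve ModularCurve

namespace Fermat.Agent.S43.PB

open Fermat.Agent.S48
open Fermat.Agent.ES (Qb GQ FF)
open Fermat.Agent.SS (GP)
open Fermat.Agent.S43.R0

variable {N : ℕ} [NeZero N] (hN : 5 ≤ N) {p : ℕ} (hp : p.Prime)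

/-- `Ctl.INV` holds at every exponent prime to `12 N`. -/
theorem ctl_INV_of_coprime {m : ℕ} (hm : 0 < m) (hmN : Nat.Coprime m (12 * N)) : Ctl.INV hN m :=
  fun y hy σ e hσ => exists_pull_eq hN hm hmN y hy σ e hσ

include hp in
/-- `Ctl.INV` holds at the exponent `p ^ k`, `p ≥ 5`, `p ∤ N`. -/
theorem ctl_INV (hp5 : 5 ≤ p) (hpN : ¬ p ∣ N) (k : ℕ) : Ctl.INV hN (p ^ k) :=
  ctl_INV_of_coprime hN (pow_pos hp.pos k) (coprime_pow_of hp hp5 hpN k)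

/-- **the concrete control package, no hypothesis left.** -/
theorem ctl_hyp [Fermat.Agent.S26.FF1 Qb (X1.F1Q N).F] (hp5 : 5 ≤ p) (hpN : ¬ p ∣ N) (k : ℕ)
    {S : Finset ℕ} (hNS : ∀ r : ℕ, r.Prime → r ∣ N → r ∈ S) (a : ℕ → ℤ) (hpS : p ∈ S)
    (ℓ0 : GP S) (hℓ0 : ¬ (p : ℤ) ∣ a ℓ0.1 - ((ℓ0.1 : ℤ) + 1)) :
    Ctl.Hyp (Fermat.Agent.S15.W.e1Hom (K := Qb) (F := (X1.F1Q N).F) (pow_pos hp.pos k).ne')
      (Fermat.Agent.S15.W.e1NHom (N := N) (pow_pos hp.pos k).ne')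
      (fun d => B1.diaKum (HD hN) (p ^ k) d) (pull hN (p ^ k)) (push hN (p ^ k))
      (Ctl.K0 hN hp k S hNS a) (Th.Vθ N (p ^ k) S hNS a) 2 ((p ^ k + 1) / 2) :=
  Ctl.hyp hN hp k hNS a (by omega) hpS (ctl_INV hN hp hp5 hpN k) ℓ0 hℓ0

end Fermat.Agent.S43.PB
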