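import Fermat.Agent.S43.R0.Pull
import Fermat.Agent.S48.An1.Inst
import Fermat.Agent.ES.An.Dict

/-!
# S43 / PB / Desc : descent of `m ∣ div` along `π : X₁(N) → X₀(N)`

For `m` prime to `6 N` and `g ∈ F_N = FF N`:  `m ∣ div (π^* g)` on `X₁(N)`  ⟹  `m ∣ div g` on `X₀(N)`
(`mem_Dm_of_incl`).  The ramification indices of `π` divide `12 N`; this is proved through the analytic dictionary: an `m`-th root `w`
of `g` on `ℍ` has a character `χ₀` of `Γ₀(N)` whose restriction to `Γ₁(N)` is good; for `γ ∈ Γ₀(N)` elliptic or parabolic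
`γ ^ (12 N)` is a parabolic element of `Γ₁(N)`, so `χ₀ γ ^ (12 N) = 1 = χ₀ γ ^ m`.
-/

set_option autoImplicit false
set_option linter.unusedSectionVars false

open AlgebraicCurve ModularCurve UpperHalfPlane CongruenceSubgroup
open scoped MatrixGroups

namespace Fermat.Agent.S43.PB

open Fermat.Agent.S24 Fermat.Agent.ES.An Fermat.Agent.S48 Fermat.Agent.S48.Coh1
open Fermat.Agent.ES (Qb GQ FF)
open Fermat.Agent.S48.An1 (X1Data Gpm)
open Fermat.Agent.S43.R0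

/-! ### matrices of trace `≤ 2` in absolute value -/

theorem mat_mul_self (M : Matrix (Fin 2) (Fin 2) ℤ) (hdet : M.det = 1) :
    M * M = M.trace • M - 1 := by
  rw [Matrix.det_fin_two] at hdet
  ext i j
  fin_cases i <;> fin_cases j <;>
    simp only [Matrix.mul_apply, Fin.sum_univ_two, Matrix.trace_fin_two, Matrix.sub_apply,
      Matrix.smul_apply, smul_eq_mul, Matrix.one_apply, Fin.zero_eta, Fin.mk_one, Fin.isValue,
      if_true, one_ne_zero, zero_ne_one, if_false] <;>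
    first | linear_combination -hdet | ring

theorem mat_trace_sq (M : Matrix (Fin 2) (Fin 2) ℤ) (hdet : M.det = 1) :
    (M ^ 2).trace = M.trace ^ 2 - 2 := by
  rw [pow_two, mat_mul_self M hdet, Matrix.trace_sub, Matrix.trace_smul, smul_eq_mul,
    Matrix.trace_one]
  simp
  ring

theorem mat_trace_cube (M : Matrix (Fin 2) (Fin 2) ℤ) (hdet : M.det = 1) :
    (M ^ 3).trace = M.trace ^ 3 - 3 * M.trace := by
  have h2 := mat_trace_sq M hdet
  rw [pow_succ M 2, pow_two, mul_assoc, mat_mul_self M hdet, mul_sub, mul_one, Matrix.mul_smul,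
    Matrix.trace_sub, Matrix.trace_smul, smul_eq_mul, ← pow_two, h2]
  ring

theorem mat_trace_pow_twelve (M : Matrix (Fin 2) (Fin 2) ℤ) (hdet : M.det = 1)
    (h : |M.trace| ≤ 2) : (M ^ 12).trace = 2 := by
  have hd : ∀ k : ℕ, (M ^ k).det = 1 := fun k => by rw [Matrix.det_pow, hdet, one_pow]
  have e3 := mat_trace_cube M hdet
  have e6 := mat_trace_sq (M ^ 3) (hd 3)
  have e12 := mat_trace_sq (M ^ 6) (hd 6)
  rw [← pow_mul] at e6 e12
  norm_num at e6 e12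
  rw [e12, e6, e3]
  rw [abs_le] at h
  have h5 : M.trace = -2 ∨ M.trace = -1 ∨ M.trace = 0 ∨ M.trace = 1 ∨ M.trace = 2 := by omega
  rcases h5 with h | h | h | h | h <;> rw [h] <;> norm_num

theorem mat_pow_of_trace_two (P : Matrix (Fin 2) (Fin 2) ℤ) (hdet : P.det = 1) (h : P.trace = 2)
    (k : ℕ) : P ^ (k + 1) = ((k : ℤ) + 1) • P - (k : ℤ) • (1 : Matrix (Fin 2) (Fin 2) ℤ) := by
  have hPP := mat_mul_self P hdet
  rw [h] at hPP
  induction k with
  | zero => simp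
  | succ k ih =>
    rw [pow_succ, ih, sub_mul, smul_mul_assoc, smul_mul_assoc, one_mul, hPP]
    push_cast
    module

/-- an elliptic or parabolic element of `SL₂(ℤ)` raised to the power `12 N` is a parabolic element of `Γ₁(N)`. -/
theorem pow_mem_Gamma1 (N : ℕ) [NeZero N] (γ : SL(2, ℤ))
    (h : |(γ : Matrix (Fin 2) (Fin 2) ℤ).trace| ≤ 2) :
    γ ^ (12 * N) ∈ Gamma1 N ∧
      |((γ ^ (12 * N) : SL(2, ℤ)) : Matrix (Fin 2) (Fin 2) ℤ).trace| ≤ 2 := by
  obtain ⟨k, hk⟩ : ∃ k, N = k + 1 := ⟨N - 1, by have := NeZero.pos N; omega⟩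
  have hP := mat_pow_of_trace_two ((γ : Matrix (Fin 2) (Fin 2) ℤ) ^ 12)
    (by rw [Matrix.det_pow, γ.det_coe, one_pow]) (mat_trace_pow_twelve _ γ.det_coe h) k
  rw [← hk, ← pow_mul, ← Matrix.SpecialLinearGroup.coe_pow] at hP
  have hkN : ((k : ℤ) : ZMod N) = -1 := by
    have : ((k : ℤ) : ZMod N) + 1 = 0 := by
      have h1 : (((k + 1 : ℕ) : ℤ) : ZMod N) = 0 := by
        rw [← hk]; simp
      push_cast at h1 ⊢
      exact h1
    linear_combination this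
  have hkN' : (((k : ℤ) + 1 : ℤ) : ZMod N) = 0 := by
    rw [Int.cast_add, hkN, Int.cast_one]; ring
  have hent : ∀ i j, (((γ ^ (12 * N) : SL(2, ℤ)) i j : ℤ) : ZMod N)
      = ((1 : Matrix (Fin 2) (Fin 2) ℤ) i j : ℤ) := by
    intro i j
    have h1 : ((γ ^ (12 * N) : SL(2, ℤ)) i j : ℤ)
        = ((k : ℤ) + 1) * (((γ : Matrix (Fin 2) (Fin 2) ℤ) ^ 12) i j)
          - (k : ℤ) * ((1 : Matrix (Fin 2) (Fin 2) ℤ) i j) := by
      have := congrFun (congrFun hP i) j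
      rw [Matrix.sub_apply, Matrix.smul_apply, Matrix.smul_apply, smul_eq_mul, smul_eq_mul] at this
      exact this
    rw [h1, Int.cast_sub, Int.cast_mul, Int.cast_mul, hkN', hkN]
    ring
  refine ⟨?_, ?_⟩
  · rw [Gamma1_mem]
    refine ⟨?_, ?_, ?_⟩
    · rw [hent]; simp
    · rw [hent]; simp
    · rw [hent]; simp
  · rw [hP, Matrix.trace_sub, Matrix.trace_smul, Matrix.trace_smul,
      mat_trace_pow_twelve _ γ.det_coe h, Matrix.trace_one]
    simp only [smul_eq_mul, Fintype.card_fin, Nat.cast_ofNat]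
    have : ((k : ℤ) + 1) * 2 - (k : ℤ) * 2 = 2 := by ring
    rw [this]
    norm_num

/-! ### the descent -/

noncomputable section

variable {N : ℕ} [NeZero N] (hN : 5 ≤ N)

/-- **(DESC)** for `m` prime to `12 N`: `m ∣ div (π^* g)` on `X₁(N)` implies `m ∣ div g` on `X₀(N)`. -/
theorem divBy_of_incl {m : ℕ} (hm : 0 < m) (hmN : Nat.Coprime m (12 * N)) (g : FF N) (hg0 : g ≠ 0)
    (hg : ∀ Q : Place Qb (X1.F1Q N).F, (m : ℤ) ∣ Q.ord (incl hN g)) :
    ∀ P : Place Qb (FF N), (m : ℤ) ∣ P.ord g := by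
  have hi0 : incl hN g ≠ 0 := by rwa [Ne, map_eq_zero]
  obtain ⟨χ1, hχ1, -⟩ := An1.exists_hasChar1 hN hm (incl hN g) hi0 hg
  have hgood1 := An1.HasChar1.isGood hN hm (incl hN g) hi0 hg χ1 hχ1
  obtain ⟨w, hw0, hw, hc1⟩ := (An1.hasChar1_iff hN).1 hχ1
  have hw' : w ^ m = toMer N (bc N g) := by
    rw [hw]
    exact φ_incl hN g
  obtain ⟨χ0, hc0, hχ0m⟩ := Fermat.Agent.ES.An.exists_isChar_of_pow (N := N) m hm w hw0
    (fun γ => by rw [hw']; exact cmp_toMer N γ _)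
  have hres : ∀ (δ : Gamma0 N) (hδ : (δ : SL(2, ℤ)) ∈ Gamma1 N), χ0 δ = χ1 ⟨δ, hδ⟩ := by
    intro δ hδ
    have h1 := hc0 δ
    have h2 := hc1 ⟨δ, hδ⟩
    rw [h2] at h1
    have h3 : (((χ1 ⟨δ, hδ⟩ : ℂˣ) : ℂ) - ((χ0 δ : ℂˣ) : ℂ)) • w = 0 := by
      rw [sub_smul, h1, sub_self]
    rcases smul_eq_zero.1 h3 with h4 | h4
    · exact Units.ext (sub_eq_zero.1 h4).symm
    · exact absurd h4 hw0
  have hgood0 : Fermat.Agent.ES.An.IsGood χ0 := by
    refine ⟨fun δ => ?_, fun δ hδ => ?_⟩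
    · have h1 : (((χ0 δ : ℂˣ) : ℂ)) ^ m = 1 := by
        have := congrArg (fun c : ℂˣ => (c : ℂ)) (DFunLike.congr_fun hχ0m δ)
        simpa using this
      exact Complex.norm_eq_one_of_pow_eq_one h1 hm.ne'
    · obtain ⟨h1, h2⟩ := pow_mem_Gamma1 N (δ : SL(2, ℤ)) hδ
      have h3 : χ0 δ ^ (12 * N) = 1 := by
        rw [← map_pow, hres (δ ^ (12 * N)) (by rw [Subgroup.coe_pow]; exact h1)]
        exact hgood1.2 _ (by
          show |(((δ ^ (12 * N) : Gamma0 N) : SL(2, ℤ)) : Matrix (Fin 2) (Fin 2) ℤ).trace| ≤ 2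
          rw [Subgroup.coe_pow]
          exact h2)
      have h4 : χ0 δ ^ m = 1 := DFunLike.congr_fun hχ0m δ
      have h5 := pow_gcd_eq_one.2 ⟨h4, h3⟩
      rwa [Nat.Coprime.gcd_eq_one hmN, pow_one] at h5
  refine (modelB N).divBy_of_char m g hg0 w hw' χ0 hgood0 hc0 (fun a => ?_)
  refine An1.GoodPar.mem_MerCusp_of_pow hm _ ?_ ?_
  · have hmem : a * ModularGroup.T ^ (N : ℤ) * a⁻¹ ∈ Gamma0 N :=
      Gpm_le_Gamma0 N (An1.K4.conj_T_pow_mem_Gpm N a)
    have h1 : cmp (slp (a * ModularGroup.T ^ (N : ℤ) * a⁻¹)) w = w := by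
      have h2 := hc0 ⟨_, hmem⟩
      rw [hgood0.2 ⟨_, hmem⟩ ?_] at h2
      · simpa using h2
      · show |((a * ModularGroup.T ^ (N : ℤ) * a⁻¹ : SL(2, ℤ)) : Matrix (Fin 2) (Fin 2) ℤ).trace| ≤ 2
        rw [Matrix.SpecialLinearGroup.coe_mul, Matrix.SpecialLinearGroup.coe_mul,
          Matrix.trace_mul_comm, ← Matrix.mul_assoc, ← Matrix.SpecialLinearGroup.coe_mul,
          inv_mul_cancel, Matrix.SpecialLinearGroup.coe_one, Matrix.one_mul,
          ModularGroup.coe_T_zpow]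
        simp [Matrix.trace_fin_two]
    have h3 := An1.GoodPar.cmp_of_conj (g := a⁻¹) (c := ModularGroup.T ^ N) (u := w) (v := w)
      (by rw [inv_inv, ← zpow_natCast]; exact h1)
    rwa [inv_inv] at h3
  · rw [← map_pow, hw']
    exact cmp_toMer_mem_MerCusp N a _

/-- (DESC) for units. -/
theorem mem_Dm_of_inclU {m : ℕ} (hm : 0 < m) (hmN : Nat.Coprime m (12 * N)) (g : (FF N)ˣ)
    (hg : inclU hN g ∈ B1.Dm Qb (X1.F1Q N).F m) : g ∈ Fermat.Agent.ES.Dm N m :=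
  divBy_of_incl hN hm hmN g g.ne_zero hg

end

end Fermat.Agent.S43.PB
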