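import Mathlib

/-!
# S43 / PB / H90 : Noether's Hilbert 90 for a finite group acting (not necessarily faithfully) on a field of characteristic `0`

`ρ : G →* (L ≃ₐ[k] L)`, `c : G → L` nowhere zero with `c (g h) = c g * ρ g (c h)` and `c = 1` on `ker ρ`:
there is `b ≠ 0` with `c g * ρ g b = b` for all `g`.   Also: roots of unity of a field extension of an algebraically closed field are constants.
-/

set_option autoImplicit false

namespace Fermat.Agent.S43.PB

theorem exists_sum_ne_zero {k L G : Type*} [CommRing k] [Field L] [CharZero L] [Algebra k L]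
    [Group G] [Fintype G] (ρ : G →* (L ≃ₐ[k] L)) (c : G → L)
    (hker : ∀ g, ρ g = 1 → c g = 1) : ∃ t : L, ∑ g, c g * ρ g t ≠ 0 := by
  classical
  by_contra hcon
  push Not at hcon
  let ρ' : G → (L →* L) := fun g => ((ρ g : L ≃ₐ[k] L) : L →* L)
  have hρ' : ∀ g t, ρ' g t = ρ g t := fun g t => rfl
  have hli := linearIndependent_monoidHom L L
  rw [linearIndependent_iff'] at hli
  have h1 := hli (Finset.univ.image ρ') (fun χ => ∑ g with ρ' g = χ, c g) (by
    funext t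
    rw [Finset.sum_apply, Pi.zero_apply, ← hcon t,
      ← Finset.sum_fiberwise_of_maps_to (s := Finset.univ) (t := Finset.univ.image ρ') (g := ρ')
        (fun g _ => Finset.mem_image_of_mem _ (Finset.mem_univ _))]
    refine Finset.sum_congr rfl fun χ _ => ?_
    rw [Pi.smul_apply, smul_eq_mul, Finset.sum_mul]
    refine Finset.sum_congr rfl fun g hg => ?_
    rw [← hρ', (Finset.mem_filter.1 hg).2]) (ρ' 1) (Finset.mem_image_of_mem _ (Finset.mem_univ _))
  have h2 : ∑ g with ρ' g = ρ' 1, c g = ∑ g with ρ' g = ρ' 1, (1 : L) := by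
    refine Finset.sum_congr rfl fun g hg => hker g ?_
    have h3 := (Finset.mem_filter.1 hg).2
    refine AlgEquiv.ext fun t => ?_
    rw [← hρ', h3, hρ', map_one]
  rw [h2, Finset.sum_const, nsmul_eq_mul, mul_one, Nat.cast_eq_zero, Finset.card_eq_zero] at h1
  have h4 : (1 : G) ∈ Finset.univ.filter (fun g => ρ' g = ρ' 1) := by simp
  rw [h1] at h4
  simp at h4

/-- **Hilbert 90** (Noether), non faithful form. -/
theorem h90 {k L G : Type*} [CommRing k] [Field L] [CharZero L] [Algebra k L]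
    [Group G] [Finite G] (ρ : G →* (L ≃ₐ[k] L)) (c : G → L)
    (hc : ∀ g h, c (g * h) = c g * ρ g (c h)) (hker : ∀ g, ρ g = 1 → c g = 1) :
    ∃ b : L, b ≠ 0 ∧ ∀ g, c g * ρ g b = b := by
  classical
  have : Fintype G := Fintype.ofFinite G
  obtain ⟨t, ht⟩ := exists_sum_ne_zero ρ c hker
  refine ⟨_, ht, fun g => ?_⟩
  rw [map_sum, Finset.mul_sum]
  refine Fintype.sum_equiv (Equiv.mulLeft g) _ _ (fun h => ?_)
  rw [Equiv.coe_mulLeft, hc, map_mul, map_mul, AlgEquiv.mul_apply, mul_assoc]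

/-- roots of unity are constants. -/
theorem exists_const_of_pow {K L : Type*} [Field K] [IsAlgClosed K] [Field L] [Algebra K L] {m : ℕ}
    (hm : 0 < m) {z : L} (hz : z ^ m = 1) : ∃ a : K, a ^ m = 1 ∧ algebraMap K L a = z := by
  have hint : IsIntegral K z := by
    refine ⟨Polynomial.X ^ m - 1, Polynomial.monic_X_pow_sub_C 1 hm.ne', ?_⟩
    simp [hz]
  have h1 := IsAlgClosed.degree_eq_one_of_irreducible K (minpoly.irreducible hint)
  obtain ⟨a, ha⟩ := minpoly.mem_range_of_degree_eq_one K z h1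
  refine ⟨a, (algebraMap K L).injective ?_, ha⟩
  rw [map_pow, ha, hz, map_one]

/-- **the abstract core of (INV).**  `f` is `ρ(G)`-invariant modulo `m`-th powers, `τ` commutes with `ρ(G)` and acts on `μ_m` as `z ↦ z ^ e`:
then `τ f / f ^ e` is, modulo `m`-th powers, a `ρ(G)`-invariant function. -/
theorem inv_core {k L G : Type*} [Field k] [IsAlgClosed k] [Field L] [CharZero L] [Algebra k L]
    [Group G] [Finite G] (ρ : G →* (L ≃ₐ[k] L)) (τ : L ≃+* L)
    (hτρ : ∀ g x, ρ g (τ x) = τ (ρ g x)) {m : ℕ} (hm : 0 < m) (e : ℕ)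
    (hτ : ∀ a : k, a ^ m = 1 → τ (algebraMap k L a) = algebraMap k L a ^ e)
    (f : L) (hf : f ≠ 0) (hE : ∀ g, ∃ E : L, ρ g f = f * E ^ m) :
    ∃ b : L, b ≠ 0 ∧ ∀ g, ρ g (τ f * (f ^ e)⁻¹ * b ^ m) = τ f * (f ^ e)⁻¹ * b ^ m := by
  choose E hE using hE
  have hE0 : ∀ g, E g ≠ 0 := by
    intro g h0
    have h1 := hE g
    rw [h0, zero_pow hm.ne', mul_zero, map_eq_zero] at h1
    exact hf h1
  -- roots of unity
  have hroot : ∀ z : L, z ^ m = 1 → τ z * (z ^ e)⁻¹ = 1 := by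
    intro z hz
    obtain ⟨a, ha, rfl⟩ := exists_const_of_pow (K := k) hm hz
    rw [hτ a ha]
    refine mul_inv_cancel₀ (pow_ne_zero _ ?_)
    intro h0
    rw [h0, zero_pow hm.ne'] at hz
    exact zero_ne_one hz
  set c : G → L := fun g => τ (E g) * (E g ^ e)⁻¹ with hc
  have hcoc : ∀ g h, c (g * h) = c g * ρ g (c h) := by
    intro g h
    have hρ0 : ρ g (E h) ≠ 0 := by rw [Ne, map_eq_zero]; exact hE0 h
    have h1 : (E (g * h) * (E g * ρ g (E h))⁻¹) ^ m = 1 := by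
      have h2 : f * E (g * h) ^ m = f * (E g ^ m * ρ g (E h) ^ m) := by
        rw [← hE, map_mul, AlgEquiv.mul_apply, hE h, map_mul, hE g, map_pow, mul_assoc]
      have h3 := mul_left_cancel₀ hf h2
      rw [mul_pow, inv_pow, mul_pow, h3]
      exact mul_inv_cancel₀ (mul_ne_zero (pow_ne_zero _ (hE0 g)) (pow_ne_zero _ hρ0))
    have h5 : E (g * h) = (E (g * h) * (E g * ρ g (E h))⁻¹) * (E g * ρ g (E h)) := by
      rw [mul_assoc, inv_mul_cancel₀ (mul_ne_zero (hE0 g) hρ0), mul_one]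
    obtain ⟨z, hz1, hz5⟩ : ∃ z : L, z ^ m = 1 ∧ E (g * h) = z * (E g * ρ g (E h)) := ⟨_, h1, h5⟩
    have h4 := hroot z hz1
    show τ (E (g * h)) * (E (g * h) ^ e)⁻¹ = τ (E g) * (E g ^ e)⁻¹ * ρ g (τ (E h) * (E h ^ e)⁻¹)
    rw [hz5, map_mul (ρ g), map_inv₀, map_pow, hτρ, map_mul τ, map_mul τ, mul_pow, mul_pow, mul_inv,
      mul_inv]
    calc τ z * (τ (E g) * τ (ρ g (E h))) * ((z ^ e)⁻¹ * ((E g ^ e)⁻¹ * (ρ g (E h) ^ e)⁻¹))
        = (τ z * (z ^ e)⁻¹) * (τ (E g) * (E g ^ e)⁻¹ * (τ (ρ g (E h)) * (ρ g (E h) ^ e)⁻¹)) := by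
          ring
      _ = _ := by rw [h4, one_mul]
  have hker : ∀ g, ρ g = 1 → c g = 1 := by
    intro g hg
    refine hroot _ ?_
    have h1 := hE g
    rw [hg, AlgEquiv.one_apply] at h1
    exact (mul_left_cancel₀ hf (by rw [mul_one]; exact h1)).symm
  obtain ⟨b, hb0, hb⟩ := h90 ρ c hcoc hker
  refine ⟨b, hb0, fun g => ?_⟩
  have h1 : ρ g b ^ m * (τ (E g) * (E g ^ e)⁻¹) ^ m = b ^ m := by
    rw [← mul_pow, mul_comm]
    exact congrArg (· ^ m) (hb g)
  rw [map_mul, map_mul, map_inv₀, map_pow, map_pow, hτρ, hE g, map_mul, map_pow, mul_pow, mul_inv,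
    ← h1, mul_pow, inv_pow, ← pow_mul, ← pow_mul, mul_comm m e]
  ring

end Fermat.Agent.S43.PB
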