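import Fermat.Agent.S43.PB.H90
import Fermat.Agent.S43.PB.Desc

/-!
# S43 / PB / Inv : (INV) diamond-invariant classes come from `X₀(N)` up to the cyclotomic character

`KK = B1.Kum Qb (F1Q N).F m`, `m` prime to `12 N`.  If `y ∈ KK` is fixed by all the diamond operators and `σ ∈ G_ℚ` acts on `μ_m` by
`z ↦ z ^ e`, then `σ y - e y ∈ π^* (ES.Kum N m)`   (`exists_pull_eq`).

So `KK^Δ / π^* Kum(X₀(N))` is a Galois module with the cyclotomic action (Eisenstein); same shape as `ThK.gal_of_pull_eq_zero` for `ker π^*`.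
-/

set_option autoImplicit false
set_option linter.unusedSectionVars false

open AlgebraicCurve ModularCurve UpperHalfPlane CongruenceSubgroup
open scoped MatrixGroups

namespace Fermat.Agent.S43.PB

open Fermat.Agent.S24 Fermat.Agent.S48
open Fermat.Agent.ES (Qb GQ FF)
open Fermat.Agent.S43.R0

noncomputable section

variable {N : ℕ} [NeZero N] (hN : 5 ≤ N)

/-- (INV) on functions. -/
theorem exists_incl_eq {m : ℕ} (hm : 0 < m) (f : (X1.F1Q N).F) (hf : f ≠ 0)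
    (hE : ∀ d : (ZMod N)ˣ, ∃ E : (X1.F1Q N).F, An1.dia (DD hN) d f = f * E ^ m)
    (σ : GQ) (e : ℕ) (hσ : ∀ ζ : Qb, ζ ^ m = 1 → σ ζ = ζ ^ e) :
    ∃ (b : (X1.F1Q N).F) (g : FF N), b ≠ 0 ∧
      incl hN g = (X1.F1Q N).galF σ f * (f ^ e)⁻¹ * b ^ m := by
  obtain ⟨b, hb0, hb⟩ := inv_core (k := Qb) (An1.dia (DD hN)) ((X1.F1Q N).galF σ)
    (fun d x => An1.dia_gal (DD hN) d σ x) hm e
    (fun a ha => by rw [B1.QField.galF_algebraMap, hσ a ha, map_pow]) f hf hE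
  obtain ⟨g, hg⟩ := mem_range_incl hN _ hb
  exact ⟨b, g, hb0, hg⟩

/-- **(INV)**. -/
theorem exists_pull_eq {m : ℕ} (hm : 0 < m) (hmN : Nat.Coprime m (12 * N))
    (y : B1.Kum Qb (X1.F1Q N).F m) (hy : ∀ d : (ZMod N)ˣ, B1.diaKum (HD hN) m d y = y)
    (σ : GQ) (e : ℕ) (hσ : ∀ ζ : Qb, ζ ^ m = 1 → σ ζ = ζ ^ e) :
    ∃ x : Fermat.Agent.ES.Kum N m, pull hN m x = B1.galKum (X1.F1Q N) m σ y - e • y := by
  obtain ⟨f, rfl⟩ := B1.Kum.mk_surjective y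
  have hE : ∀ d : (ZMod N)ˣ, ∃ E : (X1.F1Q N).F,
      An1.dia (DD hN) d ((f : (X1.F1Q N).Fˣ) : (X1.F1Q N).F)
        = ((f : (X1.F1Q N).Fˣ) : (X1.F1Q N).F) * E ^ m := by
    intro d
    have h1 := hy d
    rw [B1.diaKum_mk, B1.Kum.mk_eq_mk_iff] at h1
    obtain ⟨h, hh⟩ := h1
    refine ⟨h, ?_⟩
    have h2 := congrArg (fun u : (X1.F1Q N).Fˣ => (u : (X1.F1Q N).F)) hh
    simp only [Units.val_pow_eq_pow_val, Units.val_mul, Units.val_inv_eq_inv_val] at h2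
    rw [h2, mul_comm, mul_assoc, inv_mul_cancel₀ (f : (X1.F1Q N).Fˣ).ne_zero, mul_one]
    rfl
  obtain ⟨b, g, hb0, hg⟩ := exists_incl_eq hN hm _ (f : (X1.F1Q N).Fˣ).ne_zero hE σ e hσ
  have hg0 : g ≠ 0 := by
    rintro rfl
    rw [map_zero] at hg
    refine mul_ne_zero (mul_ne_zero ?_ (inv_ne_zero (pow_ne_zero _ (f : (X1.F1Q N).Fˣ).ne_zero)))
      (pow_ne_zero _ hb0) hg.symm
    rw [Ne, map_eq_zero]
    exact (f : (X1.F1Q N).Fˣ).ne_zero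
  -- the class
  set F1 : B1.Dm Qb (X1.F1Q N).F m := ⟨B1.semiU ((X1.F1Q N).galS σ) f, B1.semiU_mem_Dm _ f.2⟩ with hF1
  set B : B1.Dm Qb (X1.F1Q N).F m := ⟨Units.mk0 b hb0 ^ m, B1.Pw_le_Dm Qb _ m ⟨_, rfl⟩⟩ with hB
  have hU : inclU hN (Units.mk0 g hg0) = ((F1 * (f ^ e)⁻¹ * B : B1.Dm Qb (X1.F1Q N).F m) :
      (X1.F1Q N).Fˣ) := by
    apply Units.ext
    rw [coe_inclU, Units.val_mk0, hg, Subgroup.coe_mul, Subgroup.coe_mul, Subgroup.coe_inv,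
      Subgroup.coe_pow, Units.val_mul, Units.val_mul, Units.val_inv_eq_inv_val,
      Units.val_pow_eq_pow_val, hF1, hB]
    show _ = (B1.semiU ((X1.F1Q N).galS σ) f : (X1.F1Q N).F) * _
      * ((Units.mk0 b hb0 ^ m : (X1.F1Q N).Fˣ) : (X1.F1Q N).F)
    rw [B1.coe_semiU, B1.QField.toRingAut_galS, Units.val_pow_eq_pow_val, Units.val_mk0]
  have hmem : inclU hN (Units.mk0 g hg0) ∈ B1.Dm Qb (X1.F1Q N).F m := by
    rw [hU]
    exact (F1 * (f ^ e)⁻¹ * B).2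
  refine ⟨Fermat.Agent.ES.Kum.mk ⟨Units.mk0 g hg0, mem_Dm_of_inclU hN hm hmN _ hmem⟩, ?_⟩
  rw [pull_mk, B1.galKum_mk]
  have h3 : (⟨inclU hN (Units.mk0 g hg0), hmem⟩ : B1.Dm Qb (X1.F1Q N).F m) = F1 * (f ^ e)⁻¹ * B :=
    Subtype.ext hU
  have h4 : B1.Kum.mk B = 0 := (B1.Kum.mk_eq_zero_iff B).2 ⟨_, rfl⟩
  refine (congrArg B1.Kum.mk h3).trans ?_
  rw [B1.Kum.mk_mul, B1.Kum.mk_mul, B1.Kum.mk_inv, B1.Kum.mk_pow, h4, add_zero, sub_eq_add_neg]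

end

end Fermat.Agent.S43.PB
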